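/-
VERBATIM copy of origin/helper2928:Fermat/Agent/S25/ATLAS/TW/H2928/GoodOfSections.lean (namespace renamed to
`Fermat.Agent.S25.ATLAS.TW.GOODK.H2928`), used by the leaf GOODK (helper7710).

S25 package ATLAS, sub-package TW (helper2928): from vanishing of sections to the frozen
predicate `ATLAS.Good`.

* `span_sup_maximal_smul_top` : an invertible module has rank one at every maximal ideal:
  `s ∉ 𝔪 M ⇒ B s + 𝔪 M = M`.
* `span_sup_smul_top_eq_top`  : Nakayama: `s ∉ 𝔪 M` for all maximal `𝔪 ∋ g` ⇒ `B s + g M = M`.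
* `good_of_sections`          : for a line bundle `M` on `𝒞.chart κ` with `H¹(M) = 0`,
  `h⁰(M) = 1`, no nonzero section vanishing at `ε`, and no nonzero section vanishing at a point
  of `V(g) = C ∖ U₁` (a maximal ideal of `B₂` containing `g`):  `Good 𝒞 M`.
  (The two "no section" hypotheses are `H⁰(M(-Q)) = 0` for `Q = ε`, `Q ∈ V(g)`, spelled out
  without any sub-bundle library.)

Imports only the frozen `ATLAS/Defs.lean`.  No sorry.
-/
import Fermat.Agent.S25.ATLAS.Defs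

set_option autoImplicit false
set_option linter.style.haveILetI false

universe u

namespace Fermat.Agent.S25.ATLAS.TW.GOODK.H2928

open scoped TensorProduct

section Nakayama

variable {B : Type u} [CommRing B] {M : Type u} [AddCommGroup M] [Module B M]

/-- An invertible module has rank one at every maximal ideal: an element outside `𝔪 M`
generates `M` modulo `𝔪 M`. -/
theorem span_sup_maximal_smul_top [Module.Invertible B M] (𝔪 : Ideal B) [h𝔪 : 𝔪.IsMaximal]
    {s : M} (hs : s ∉ 𝔪 • (⊤ : Submodule B M)) :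
    Submodule.span B {s} ⊔ 𝔪 • (⊤ : Submodule B M) = ⊤ := by
  letI : Field (B ⧸ 𝔪) := Ideal.Quotient.field 𝔪
  have hfr : Module.finrank (B ⧸ 𝔪) ((B ⧸ 𝔪) ⊗[B] M) = 1 :=
    Module.Invertible.finrank_eq_one ..
  have key : ∀ (c : B) (x : M),
      TensorProduct.quotTensorEquivQuotSMul M 𝔪 (Ideal.Quotient.mk 𝔪 c ⊗ₜ[B] x) =
        Submodule.Quotient.mk (c • x) :=
    fun c x => TensorProduct.quotTensorEquivQuotSMul_mk_tmul 𝔪 c x
  have hne : ((1 : B ⧸ 𝔪) ⊗ₜ[B] s) ≠ 0 := by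
    intro h0
    apply hs
    have h1 := key 1 s
    rw [map_one, h0, map_zero, one_smul] at h1
    exact (Submodule.Quotient.mk_eq_zero _).mp h1.symm
  rw [eq_top_iff]
  intro m _
  obtain ⟨c, hc⟩ := (finrank_eq_one_iff_of_nonzero' _ hne).mp hfr ((1 : B ⧸ 𝔪) ⊗ₜ[B] m)
  obtain ⟨c, rfl⟩ := Ideal.Quotient.mk_surjective c
  have h1 : (Submodule.Quotient.mk (c • s) : M ⧸ 𝔪 • (⊤ : Submodule B M)) =
      Submodule.Quotient.mk m := by
    rw [← key c s, ← one_smul B m, ← key 1 m, map_one, ← hc, TensorProduct.smul_tmul',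
      smul_eq_mul, mul_one]
  rw [Submodule.Quotient.eq] at h1
  have h2 : m = c • s - (c • s - m) := by abel
  rw [h2]
  exact Submodule.sub_mem _
    (Submodule.mem_sup_left (Submodule.smul_mem _ _ (Submodule.mem_span_singleton_self s)))
    (Submodule.mem_sup_right h1)

/-- Nakayama: if `s` does not vanish at any maximal ideal containing `g`, then `s` generates
`M` modulo `g M`. -/
theorem span_sup_smul_top_eq_top [Module.Invertible B M] (g : B) (s : M)
    (h : ∀ 𝔪 : Ideal B, 𝔪.IsMaximal → g ∈ 𝔪 → s ∉ 𝔪 • (⊤ : Submodule B M)) :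
    Submodule.span B {s} ⊔ Ideal.span {g} • (⊤ : Submodule B M) = ⊤ := by
  set N : Submodule B M := Submodule.span B {s} ⊔ Ideal.span {g} • (⊤ : Submodule B M) with hN
  by_contra hne
  have hI : Module.annihilator B (M ⧸ N) ≠ ⊤ := by
    intro hI
    apply hne
    rw [eq_top_iff]
    intro m _
    have h1 : (1 : B) ∈ Module.annihilator B (M ⧸ N) := hI ▸ Submodule.mem_top
    have h2 := Module.mem_annihilator.mp h1 (Submodule.Quotient.mk m)
    rw [one_smul] at h2
    exact (Submodule.Quotient.mk_eq_zero _).mp h2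
  obtain ⟨𝔪, h𝔪, hle⟩ := Ideal.exists_le_maximal _ hI
  have hg : g ∈ 𝔪 := by
    apply hle
    rw [Module.mem_annihilator]
    intro q
    obtain ⟨m, rfl⟩ := Submodule.Quotient.mk_surjective _ q
    rw [← Submodule.Quotient.mk_smul, Submodule.Quotient.mk_eq_zero]
    exact Submodule.mem_sup_right
      (Submodule.smul_mem_smul (Ideal.mem_span_singleton_self g) Submodule.mem_top)
  haveI := h𝔪
  have htop := span_sup_maximal_smul_top 𝔪 (h 𝔪 h𝔪 hg)
  have hN𝔪 : N ⊔ 𝔪 • (⊤ : Submodule B M) = ⊤ := by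
    apply eq_top_iff.mpr
    calc (⊤ : Submodule B M) = Submodule.span B {s} ⊔ 𝔪 • (⊤ : Submodule B M) := htop.symm
      _ ≤ N ⊔ 𝔪 • (⊤ : Submodule B M) := sup_le_sup_right le_sup_left _
  -- Nakayama on `M ⧸ N`
  have hle' : (⊤ : Submodule B (M ⧸ N)) ≤ 𝔪 • (⊤ : Submodule B (M ⧸ N)) := by
    intro q _
    obtain ⟨m, rfl⟩ := Submodule.Quotient.mk_surjective _ q
    have hm : m ∈ N ⊔ 𝔪 • (⊤ : Submodule B M) := by
      rw [hN𝔪]
      exact Submodule.mem_top
    obtain ⟨n, hn, x, hx, rfl⟩ := Submodule.mem_sup.mp hm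
    have h3 : (Submodule.Quotient.mk (n + x) : M ⧸ N) = N.mkQ x := by
      rw [Submodule.Quotient.mk_add, (Submodule.Quotient.mk_eq_zero N).mpr hn, zero_add]
      rfl
    rw [h3]
    have h4 : N.mkQ x ∈ (𝔪 • (⊤ : Submodule B M)).map N.mkQ := Submodule.mem_map_of_mem hx
    rw [Submodule.map_smul'', Submodule.map_top, Submodule.range_mkQ] at h4
    exact h4
  have hfg : (⊤ : Submodule B (M ⧸ N)).FG := Module.Finite.fg_top
  obtain ⟨r, hr1, hr0⟩ :=
    Submodule.exists_sub_one_mem_and_smul_eq_zero_of_fg_of_le_smul 𝔪 _ hfg hle'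
  have hr : r ∈ 𝔪 := hle (Module.mem_annihilator.mpr fun q => hr0 q Submodule.mem_top)
  have h1 : (1 : B) ∈ 𝔪 := by
    have := 𝔪.sub_mem hr hr1
    simpa using this
  exact h𝔪.ne_top ((Ideal.eq_top_iff_one 𝔪).mpr h1)

end Nakayama

section Good

variable {k : Type u} [Field k] (𝒞 : CurveData k)

/-- From vanishing of sections to `Good`: a line bundle `M` over a field `κ` with `H¹(M) = 0`,
`h⁰(M) = 1`, whose nonzero sections vanish neither at `ε` nor at any point of `V(g)`. -/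
theorem good_of_sections {κ : Type u} [Field κ] [Algebra k κ] (M : GluedModule (𝒞.chart κ))
    (hM : M.IsLineBundle) (h1 : Subsingleton M.H1) (h0 : Module.finrank κ M.H0 = 1)
    (hε : ∀ s : M.H0, (s : M.N₁ × M.N₂).1 ∈
        (RingHom.ker (𝒞.epsR κ : (𝒞.chart κ).B₁ →+* κ)) • (⊤ : Submodule (𝒞.chart κ).B₁ M.N₁) →
          s = 0)
    (hg : ∀ 𝔪 : Ideal (𝒞.chart κ).B₂, 𝔪.IsMaximal → (𝒞.chart κ).g ∈ 𝔪 → ∀ s : M.H0,
        (s : M.N₁ × M.N₂).2 ∈ 𝔪 • (⊤ : Submodule (𝒞.chart κ).B₂ M.N₂) → s = 0) :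
    Good 𝒞 M := by
  obtain ⟨s, hs, -⟩ := finrank_eq_one_iff'.mp h0
  haveI := hM.inv₂
  exact ⟨h1, h0, s, fun hmem => hs (hε s hmem),
    span_sup_smul_top_eq_top (𝒞.chart κ).g (s : M.N₁ × M.N₂).2
      (fun 𝔪 h𝔪 hg𝔪 hmem => hs (hg 𝔪 h𝔪 hg𝔪 s hmem))⟩

end Good

end Fermat.Agent.S25.ATLAS.TW.GOODK.H2928
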