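/-
S25 package ATLAS, sub-package TW, leaf GOODK (helper7710): isomorphisms between iterated
sub-bundles `𝔞 • N` (any two-chart over any ring), compatibility with twists, and invariance of
the frozen predicate `Good` under isomorphism.

* `nestEquiv I J`        : `I • (J • M) ≃ (I * J) • M` (nested submodule versus flat submodule);
* `smulSmulIso 𝔭 𝔞 N`    : `𝔭 • (𝔞 • N) ≅ (𝔭 * 𝔞) • N`;
* `oneSmulIso N`         : `1 • N ≅ N`;
* `smulTwistIso 𝔞 N n`   : `𝔞 • (N⟨n⟩) ≅ (𝔞 • N)⟨n⟩`;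
* `nonempty_foldl_iso`   : `P xₘ • (… • (P x₁ • N)) ≅ (P x₁ * … * P xₘ) • N`;
* `good_of_iso`          : `Good` is invariant under isomorphism.

On `TW/{Sub,Ideal,Defs}` (helper228) only.  No sorry.
-/
import Fermat.Agent.S25.ATLAS.TW.Defs

set_option autoImplicit false

universe u

namespace Fermat.Agent.S25.ATLAS.TW.GOODK

open Fermat.Agent.S25

section Nest

variable {B : Type*} [CommRing B] {M : Type*} [AddCommGroup M] [Module B M]

/-- `I • (J • M) = (I * J) • M`: the nested submodule is the flat one. -/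
noncomputable def nestEquiv (I J : Ideal B) :
    ↥(I • ⊤ : Submodule B ↥(J • ⊤ : Submodule B M)) ≃ₗ[B] ↥((I * J) • ⊤ : Submodule B M) :=
  (Submodule.equivMapOfInjective (J • ⊤ : Submodule B M).subtype
      (Submodule.injective_subtype _) (I • ⊤)).trans
    (LinearEquiv.ofEq _ _ (by
      rw [Submodule.map_smul'', Submodule.map_top, Submodule.range_subtype, mul_smul]))

@[simp] theorem nestEquiv_coe (I J : Ideal B)
    (x : ↥(I • ⊤ : Submodule B ↥(J • ⊤ : Submodule B M))) :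
    ((nestEquiv I J x : ↥((I * J) • ⊤ : Submodule B M)) : M) =
      ((x : ↥(J • ⊤ : Submodule B M)) : M) := rfl

/-- `⊤ • M = M`. -/
noncomputable def topSmulEquiv (I : Ideal B) (hI : I = ⊤) :
    ↥(I • ⊤ : Submodule B M) ≃ₗ[B] M :=
  (LinearEquiv.ofEq _ _ (by rw [hI, Submodule.top_smul])).trans Submodule.topEquiv

@[simp] theorem topSmulEquiv_apply (I : Ideal B) (hI : I = ⊤) (x : ↥(I • ⊤ : Submodule B M)) :
    topSmulEquiv I hI x = (x : M) := rfl

/-- A linear map sends `I • ⊤` into `I • ⊤`. -/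
theorem map_mem_smul_top {M' : Type*} [AddCommGroup M'] [Module B M'] (φ : M →ₗ[B] M')
    (I : Ideal B) {x : M} (hx : x ∈ (I • ⊤ : Submodule B M)) :
    φ x ∈ (I • ⊤ : Submodule B M') := by
  have h : (I • ⊤ : Submodule B M).map φ ≤ I • ⊤ := by
    rw [Submodule.map_smul'']
    exact Submodule.smul_mono le_rfl le_top
  exact h (Submodule.mem_map_of_mem hx)

end Nest

section Glued

variable {R : Type u} [CommRing R] {𝔹 : TwoChart R}

/-- `𝔭 • (𝔞 • N) ≅ (𝔭 * 𝔞) • N`. -/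
noncomputable def smulSmulIso (𝔭 𝔞 : IdealDatum 𝔹) (N : GluedModule 𝔹) :
    GluedModule.Iso (𝔭.smul (𝔞.smul N)) ((𝔭 * 𝔞).smul N) where
  e₁ := nestEquiv 𝔭.a₁ 𝔞.a₁
  e₂ := nestEquiv 𝔭.a₂ 𝔞.a₂
  e₁₂ := (nestEquiv 𝔭.a₁₂ 𝔞.a₁₂).trans (LinearEquiv.ofEq _ _ (by
    change (𝔭.a₁.map 𝔹.r₁ * 𝔞.a₁.map 𝔹.r₁) • (⊤ : Submodule 𝔹.B₁₂ N.N₁₂) =
      ((𝔭.a₁ * 𝔞.a₁).map 𝔹.r₁) • (⊤ : Submodule 𝔹.B₁₂ N.N₁₂)
    rw [Ideal.map_mul]))
  comm₁ _ := rfl
  comm₂ _ := rfl

/-- `1 • N ≅ N`. -/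
noncomputable def oneSmulIso (N : GluedModule 𝔹) :
    GluedModule.Iso ((1 : IdealDatum 𝔹).smul N) N where
  e₁ := topSmulEquiv _ rfl
  e₂ := topSmulEquiv _ rfl
  e₁₂ := topSmulEquiv _ (Ideal.map_top _)
  comm₁ _ := rfl
  comm₂ _ := rfl

/-- `𝔞 • (N⟨n⟩) ≅ (𝔞 • N)⟨n⟩` (identity maps). -/
noncomputable def smulTwistIso (𝔞 : IdealDatum 𝔹) (N : GluedModule 𝔹) (n : ℤ) :
    GluedModule.Iso (𝔞.smul (N.twist n)) ((𝔞.smul N).twist n) where
  e₁ := LinearEquiv.refl _ _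
  e₂ := LinearEquiv.refl _ _
  e₁₂ := LinearEquiv.refl _ _
  comm₁ _ := rfl
  comm₂ _ := rfl

/-- Equal ideal data give isomorphic sub-bundles. -/
theorem nonempty_iso_of_eq {𝔞 𝔟 : IdealDatum 𝔹} (h : 𝔞 = 𝔟) (N : GluedModule 𝔹) :
    Nonempty (GluedModule.Iso (𝔞.smul N) (𝔟.smul N)) := by
  subst h
  exact ⟨GluedModule.Iso.refl _⟩

/-- `𝔮 • (𝔭 • N) ≅ 𝔭 • (𝔮 • N)`. -/
theorem nonempty_swap_iso (𝔮 𝔭 : IdealDatum 𝔹) (N : GluedModule 𝔹) :
    Nonempty (GluedModule.Iso (𝔮.smul (𝔭.smul N)) (𝔭.smul (𝔮.smul N))) := by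
  obtain ⟨e⟩ := nonempty_iso_of_eq (mul_comm 𝔮 𝔭) N
  exact ⟨((smulSmulIso 𝔮 𝔭 N).trans e).trans (smulSmulIso 𝔭 𝔮 N).symm⟩

/-- The iterated sub-bundle `P xₘ • (… • (P x₁ • N))` is the sub-bundle of the product datum. -/
theorem nonempty_foldl_iso {X : Type*} (P : X → IdealDatum 𝔹) (l : List X) :
    ∀ N : GluedModule 𝔹,
      Nonempty (GluedModule.Iso (l.foldl (fun M x => (P x).smul M) N) ((l.map P).prod.smul N)) := by
  induction l with
  | nil =>
    intro N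
    exact ⟨(oneSmulIso N).symm⟩
  | cons x l ih =>
    intro N
    obtain ⟨e⟩ := ih ((P x).smul N)
    obtain ⟨e'⟩ := nonempty_iso_of_eq
      (show (l.map P).prod * P x = ((x :: l).map P).prod by
        rw [List.map_cons, List.prod_cons, mul_comm]) N
    exact ⟨(e.trans (smulSmulIso _ (P x) N)).trans e'⟩

end Glued

section Good

variable {k : Type u} [Field k] (𝒞 : CurveData k)

/-- `Good` is invariant under isomorphism. -/
theorem good_of_iso {κ : Type u} [Field κ] [Algebra k κ] {M M' : GluedModule (𝒞.chart κ)}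
    (e : GluedModule.Iso M M') (h : Good 𝒞 M) : Good 𝒞 M' := by
  obtain ⟨h1, h0, s, hs1, hs2⟩ := h
  refine ⟨e.H1.symm.injective.subsingleton, ?_, e.H0 s, ?_, ?_⟩
  · rw [← h0]
    exact (LinearEquiv.finrank_eq e.H0).symm
  · intro hmem
    apply hs1
    have h2 := map_mem_smul_top e.e₁.symm.toLinearMap _ hmem
    have h3 : e.e₁.symm.toLinearMap ((e.H0 s : M'.N₁ × M'.N₂)).1 = (s : M.N₁ × M.N₂).1 :=
      e.e₁.symm_apply_apply _
    rwa [h3] at h2
  · have h2 := congrArg (Submodule.map e.e₂.toLinearMap) hs2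
    rw [Submodule.map_sup, Submodule.map_span, Set.image_singleton, Submodule.map_smul'',
      Submodule.map_top, LinearMap.range_eq_top.mpr e.e₂.surjective] at h2
    exact h2

end Good

end Fermat.Agent.S25.ATLAS.TW.GOODK
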