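/-
S25 package ATLAS, sub-package TW, leaf GOODK (helper7710): point modifications of line bundles
on a curve chart over an algebraically closed field.

* `IsPt 𝔭`                : an ideal datum of "one point" (`h⁰(N / 𝔭 N) = 1` for line bundles `N`);
  `isPt_ofFst`, `isPt_ofSnd` : the data of a maximal ideal of either chart are points;
* `IsPt.dichotomy`        : `h⁰(N) = h⁰(𝔭N) + 1 ∧ h¹(N) = h¹(𝔭N)` or
                            `h⁰(N) = h⁰(𝔭N) ∧ h¹(N) + 1 = h¹(𝔭N)`;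
* `IsPt.gchi_smul`        : `χ(𝔭 N) = χ(N) - 1`;
* `fst_mem_of_gh0_eq`     : if `h⁰(𝔭N) = h⁰(N)` every section of `N` lies in `𝔭 N`;
* `eq_zero_of_fst_mem`, `eq_zero_of_snd_mem` : if `H⁰(𝔪 N) = 0` no nonzero section vanishes at `𝔪`;
* `finite_setOf_isMaximal_mem_smul_top` : a nonzero section vanishes at finitely many points;
* `gchi_twist_nat`        : `χ(N⟨n⟩) = χ(N) + n · dim B₂/(g)`.

On `TW/{Sub,Ideal,Curve}` + `TW/Dep/**` (helper228's library) only.  No sorry.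
-/
import Fermat.Agent.S25.ATLAS.TW.Curve

set_option autoImplicit false
set_option linter.style.haveILetI false
set_option linter.unusedSectionVars false

universe u

namespace Fermat.Agent.S25.ATLAS.TW.GOODK

open Fermat.Agent.S25 H1451

/-! ### Commutative algebra: zeros of a section -/

section Algebra

/-- For an invertible module `N` and a proper ideal `𝔪`, `𝔪 N ≠ N`. -/
theorem smul_top_ne_top {B : Type*} [CommRing B] {N : Type*} [AddCommGroup N] [Module B N]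
    [Module.Invertible B N] {𝔪 : Ideal B} (h𝔪 : 𝔪 ≠ ⊤) : (𝔪 • ⊤ : Submodule B N) ≠ ⊤ := by
  intro htop
  obtain ⟨r, hr1, hr⟩ := Submodule.exists_sub_one_mem_and_smul_eq_zero_of_fg_of_le_smul 𝔪 _
    (Module.finite_def.mp (inferInstance : Module.Finite B N)) (le_of_eq htop.symm)
  have hr0 : r = 0 := by
    by_contra hne
    have hinj := (Module.Invertible.toModuleEnd_bijective B (M := N)).injective
    apply hne
    apply hinj
    ext n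
    simpa using hr n trivial
  rw [hr0, zero_sub, neg_mem_iff] at hr1
  exact h𝔪 ((Ideal.eq_top_iff_one _).mpr hr1)

/-- The quotient of an invertible module over a domain by a nonzero section is killed by a
nonzero element. -/
theorem exists_ne_zero_forall_smul_mem {B : Type*} [CommRing B] [IsDomain B] {N : Type*}
    [AddCommGroup N] [Module B N] [Module.Invertible B N] {s : N} (hs : s ≠ 0) :
    ∃ a : B, a ≠ 0 ∧ ∀ n : N, a • n ∈ Submodule.span B {s} := by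
  classical
  obtain ⟨S, hS⟩ := Module.finite_def.mp (inferInstance : Module.Finite B N)
  choose b hb0 hb using fun n : N => H190.exists_smul_mem_span_singleton (B := B) hs n
  refine ⟨∏ t ∈ S, b t, Finset.prod_ne_zero_iff.mpr fun t _ => hb0 t, fun n => ?_⟩
  have hn : n ∈ Submodule.span B (S : Set N) := by rw [hS]; trivial
  induction hn using Submodule.span_induction with
  | mem t ht =>
    rw [← Finset.prod_erase_mul S b ht, mul_smul]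
    exact Submodule.smul_mem _ _ (hb t)
  | zero => rw [smul_zero]; exact zero_mem _
  | add x y _ _ hx hy => rw [smul_add]; exact add_mem hx hy
  | smul c x _ hx => rw [smul_comm]; exact Submodule.smul_mem _ _ hx

/-- A nonzero element of a Dedekind domain lies in finitely many maximal ideals. -/
theorem finite_setOf_isMaximal_mem {B : Type*} [CommRing B] [IsDedekindDomain B] {a : B}
    (ha : a ≠ 0) : {𝔪 : Ideal B | 𝔪.IsMaximal ∧ a ∈ 𝔪}.Finite := by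
  refine (Ideal.finite_minimalPrimes_of_isNoetherianRing B (Ideal.span {a})).subset ?_
  rintro 𝔪 ⟨h𝔪, ha𝔪⟩
  refine ⟨⟨h𝔪.isPrime, (Ideal.span_singleton_le_iff_mem 𝔪).mpr ha𝔪⟩, ?_⟩
  rintro q ⟨hq, hle⟩ hq𝔪
  have hq0 : q ≠ ⊥ := by
    intro h
    have h1 := hle (Ideal.mem_span_singleton_self a)
    rw [h, Ideal.mem_bot] at h1
    exact ha h1
  have hqmax : q.IsMaximal := hq.isMaximal hq0
  exact (hqmax.eq_of_le h𝔪.ne_top hq𝔪).ge

/-- A nonzero section of an invertible module over a Dedekind domain vanishes at finitely many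
closed points. -/
theorem finite_setOf_isMaximal_mem_smul_top {B : Type*} [CommRing B] [IsDedekindDomain B]
    {N : Type*} [AddCommGroup N] [Module B N] [Module.Invertible B N] {s : N} (hs : s ≠ 0) :
    {𝔪 : Ideal B | 𝔪.IsMaximal ∧ s ∈ (𝔪 • ⊤ : Submodule B N)}.Finite := by
  obtain ⟨a, ha0, ha⟩ := exists_ne_zero_forall_smul_mem (B := B) hs
  refine (finite_setOf_isMaximal_mem ha0).subset ?_
  rintro 𝔪 ⟨h𝔪, hs𝔪⟩
  refine ⟨h𝔪, ?_⟩
  by_contra ha𝔪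
  apply smul_top_ne_top (N := N) h𝔪.ne_top
  rw [eq_top_iff]
  intro n _
  obtain ⟨c, i, hi, hc⟩ := h𝔪.exists_inv ha𝔪
  have h1 : a • n ∈ (𝔪 • ⊤ : Submodule B N) := by
    obtain ⟨d, hd⟩ := Submodule.mem_span_singleton.mp (ha n)
    rw [← hd]
    exact Submodule.smul_mem _ _ hs𝔪
  have h2 : i • n ∈ (𝔪 • ⊤ : Submodule B N) := Submodule.smul_mem_smul hi trivial
  have h3 : n = c • a • n + i • n := by
    rw [← mul_smul, ← add_smul, hc, one_smul]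
  rw [h3]
  exact add_mem (Submodule.smul_mem _ _ h1) h2

end Algebra

/-! ### The step `N⟨n⟩ → N⟨n+1⟩` (any two-chart) -/

section TwistHom

variable {R : Type u} [CommRing R] {𝔹 : TwoChart R}

/-- The morphism `N⟨n⟩ → N⟨n+1⟩`: identity on chart 1, multiplication by `g` on chart 2. -/
def twistSuccHom (N : GluedModule 𝔹) (n : ℤ) : GluedModule.Hom (N.twist n) (N.twist (n + 1)) where
  φ₁ := LinearMap.id
  φ₂ := LinearMap.lsmul 𝔹.B₂ N.N₂ 𝔹.g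
  φ₁₂ := LinearMap.id
  comm₁ _ := rfl
  comm₂ x := by
    change ((𝔹.u ^ n : 𝔹.B₁₂ˣ) : 𝔹.B₁₂) • N.ι₂ x =
      ((𝔹.u ^ (n + 1) : 𝔹.B₁₂ˣ) : 𝔹.B₁₂) • N.ι₂ (𝔹.g • x)
    rw [N.ι₂_smul, ← mul_smul, H2750.u_zpow_succ_mul]

theorem range_twistSuccHom_φ₂ (N : GluedModule 𝔹) (n : ℤ) :
    LinearMap.range (twistSuccHom N n).φ₂ = (Ideal.span {𝔹.g} • ⊤ : Submodule 𝔹.B₂ N.N₂) := by
  rw [Submodule.ideal_span_singleton_smul]
  ext x
  rw [Submodule.mem_smul_pointwise_iff_exists]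
  constructor
  · rintro ⟨y, rfl⟩
    exact ⟨y, trivial, rfl⟩
  · rintro ⟨y, -, rfl⟩
    exact ⟨y, rfl⟩

end TwistHom

variable {κ : Type u} [Field κ] [IsAlgClosed κ] {𝔹 : TwoChart κ}

/-! ### Euler characteristic of twists -/

/-- `χ(N⟨n+1⟩) = χ(N⟨n⟩) + dim B₂/(g)`. -/
theorem gchi_twist_succ (H : CurveChartHyp 𝔹) {N : GluedModule 𝔹} (hN : N.IsLineBundle) (n : ℤ) :
    gchi (N.twist (n + 1)) = gchi (N.twist n) +
      (Module.finrank κ (𝔹.B₂ ⧸ Ideal.span {𝔹.g}) : ℤ) := by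
  haveI := H.ded₂
  haveI := H.ft₂
  haveI := hN.inv₂
  set φ := twistSuccHom N n with hφ
  have h₁ : Function.Injective φ.φ₁ := fun _ _ h => h
  have h₂ : Function.Injective φ.φ₂ := by
    rw [injective_iff_map_eq_zero]
    intro x hx
    exact smul_eq_zero_of_invertible H.g_ne_zero hx
  -- the cokernel
  have hsub₁ : Subsingleton (coker φ).N₁ := by
    change Subsingleton (N.N₁ ⧸ LinearMap.range (LinearMap.id : N.N₁ →ₗ[𝔹.B₁] N.N₁))
    rw [LinearMap.range_id]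
    exact Submodule.Quotient.subsingleton_iff.mpr rfl
  have hsub₁₂ : Subsingleton (coker φ).N₁₂ := by
    change Subsingleton (N.N₁₂ ⧸ LinearMap.range (LinearMap.id : N.N₁₂ →ₗ[𝔹.B₁₂] N.N₁₂))
    rw [LinearMap.range_id]
    exact Submodule.Quotient.subsingleton_iff.mpr rfl
  have e₂ : (coker φ).N₂ ≃ₗ[κ] (N.N₂ ⧸ (Ideal.span {𝔹.g} • ⊤ : Submodule 𝔹.B₂ N.N₂)) :=
    (Submodule.quotEquivOfEq _ _ (range_twistSuccHom_φ₂ N n)).restrictScalars κ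
  have hfin₂' : Module.Finite κ (𝔹.B₂ ⧸ Ideal.span {𝔹.g}) :=
    H190.finite_quotient_of_ne_bot κ (by simpa using H.g_ne_zero)
  have hd : Module.finrank κ (N.N₂ ⧸ (Ideal.span {𝔹.g} • ⊤ : Submodule 𝔹.B₂ N.N₂)) =
      Module.finrank κ (𝔹.B₂ ⧸ Ideal.span {𝔹.g}) :=
    H190.finrank_quotient_span_smul_top κ H.g_ne_zero
  have hfinq : Module.Finite κ (N.N₂ ⧸ (Ideal.span {𝔹.g} • ⊤ : Submodule 𝔹.B₂ N.N₂)) := by
    have : IsArtinianRing (𝔹.B₂ ⧸ Ideal.span {𝔹.g}) :=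
      (Module.finite_iff_isArtinianRing κ (𝔹.B₂ ⧸ Ideal.span {𝔹.g})).mp hfin₂'
    obtain ⟨e⟩ := H190.nonempty_quotient_smul_top_equiv (N := N.N₂) (Ideal.span {𝔹.g})
    exact Module.Finite.equiv (e.restrictScalars κ).symm
  haveI hfin₁ : Module.Finite κ (coker φ).N₁ := Module.Finite.of_finite
  haveI hfin₂ : Module.Finite κ (coker φ).N₂ := Module.Finite.equiv e₂.symm
  have h := gchi_eq_add_coker φ h₁ h₂ (H.finCoh (GluedModule.twist_isLineBundle hN n))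
    (finCoh_of_finite _)
  rw [h, gchi_of_finite (coker φ), Module.finrank_zero_of_subsingleton (M := (coker φ).N₁),
    Module.finrank_zero_of_subsingleton (M := (coker φ).N₁₂), LinearEquiv.finrank_eq e₂, hd]
  simp

/-- `χ(N⟨n⟩) = χ(N) + n · dim B₂/(g)`. -/
theorem gchi_twist_nat (H : CurveChartHyp 𝔹) {N : GluedModule 𝔹} (hN : N.IsLineBundle) (n : ℕ) :
    gchi (N.twist (n : ℤ)) = gchi N +
      (n : ℤ) * (Module.finrank κ (𝔹.B₂ ⧸ Ideal.span {𝔹.g}) : ℤ) := by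
  induction n with
  | zero =>
    rw [Nat.cast_zero, zero_mul, add_zero]
    exact gchi_congr (GluedModule.twistZero N)
  | succ n ih =>
    rw [Nat.cast_succ, gchi_twist_succ H hN, ih]
    ring

/-! ### Point data -/

/-- An ideal datum "of one point": both ideals nonzero and `h⁰(N / 𝔭 N) = 1` for every line
bundle `N`. -/
structure IsPt (𝔭 : IdealDatum 𝔹) : Prop where
  ne₁ : 𝔭.a₁ ≠ ⊥
  ne₂ : 𝔭.a₂ ≠ ⊥
  gh0_quot : ∀ N : GluedModule 𝔹, N.IsLineBundle → gh0 (𝔭.quot N) = 1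

/-- The ideal datum of a closed point of the first chart is a point datum. -/
theorem isPt_ofFst (H : CurveChartHyp 𝔹) (𝔪 : Ideal 𝔹.B₁) [h𝔪 : 𝔪.IsMaximal] :
    IsPt (IdealDatum.ofFst 𝔪 : IdealDatum 𝔹) := by
  haveI := H.ded₁
  haveI := H.ft₁
  have ne₁ : (IdealDatum.ofFst 𝔪 : IdealDatum 𝔹).a₁ ≠ ⊥ :=
    Ring.ne_bot_of_isMaximal_of_not_isField h𝔪 H.nf₁
  have ne₂ : (IdealDatum.ofFst 𝔪 : IdealDatum 𝔹).a₂ ≠ ⊥ := H.ofFst_a₂_ne_bot ne₁
  refine ⟨ne₁, ne₂, fun N hN => ?_⟩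
  haveI := hN.inv₁
  set 𝔭 : IdealDatum 𝔹 := IdealDatum.ofFst 𝔪 with h𝔭
  haveI := H.finite_quot₁ hN 𝔭 ne₁
  haveI := H.finite_quot₂ hN 𝔭 ne₂
  have h1 : Module.finrank κ (𝔭.quot N).N₁ = 1 :=
    H190.finrank_quotient_isMaximal (N := N.N₁) κ 𝔪 (H190.finrank_quotient_maximal_eq_one κ 𝔪)
  have hinj : Function.Injective (𝔭.quot N).ι₂ := by
    rw [injective_iff_map_eq_zero]
    intro x hx
    obtain ⟨n, rfl⟩ := Submodule.Quotient.mk_surjective _ x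
    rw [SubGlued.quotι₂_mk, Submodule.Quotient.mk_eq_zero] at hx
    rw [Submodule.Quotient.mk_eq_zero]
    exact H.mem_smul_top_of_ι₂_mem hN 𝔭 ne₂ rfl n hx
  have h2 : Module.finrank κ (𝔭.quot N).N₂ = Module.finrank κ (𝔭.quot N).N₁₂ :=
    LinearEquiv.finrank_eq
      (LinearEquiv.ofBijective (𝔭.quot N).ι₂ ⟨hinj, ι₂_surjective_of_finite _⟩)
  have h3 := gh0_of_finite (𝔭.quot N)
  rw [h1, h2] at h3
  have h4 : ((gh0 (𝔭.quot N) : ℕ) : ℤ) = 1 := by rw [h3]; simp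
  exact_mod_cast h4

/-- The ideal datum of a closed point of the second chart is a point datum. -/
theorem isPt_ofSnd (H : CurveChartHyp 𝔹) (𝔪 : Ideal 𝔹.B₂) [h𝔪 : 𝔪.IsMaximal] :
    IsPt (IdealDatum.ofSnd 𝔪 : IdealDatum 𝔹) := by
  haveI := H.ded₂
  haveI := H.ft₂
  have ne₂ : (IdealDatum.ofSnd 𝔪 : IdealDatum 𝔹).a₂ ≠ ⊥ :=
    Ring.ne_bot_of_isMaximal_of_not_isField h𝔪 H.nf₂
  have ne₁ : (IdealDatum.ofSnd 𝔪 : IdealDatum 𝔹).a₁ ≠ ⊥ := H.ofSnd_a₁_ne_bot ne₂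
  refine ⟨ne₁, ne₂, fun N hN => ?_⟩
  haveI := hN.inv₂
  set 𝔭 : IdealDatum 𝔹 := IdealDatum.ofSnd 𝔪 with h𝔭
  haveI := H.finite_quot₁ hN 𝔭 ne₁
  haveI := H.finite_quot₂ hN 𝔭 ne₂
  have h1 : Module.finrank κ (𝔭.quot N).N₂ = 1 :=
    H190.finrank_quotient_isMaximal (N := N.N₂) κ 𝔪 (H190.finrank_quotient_maximal_eq_one κ 𝔪)
  have hsat : 𝔭.a₁ = 𝔭.a₁₂.comap 𝔹.r₁ := by rw [IdealDatum.a₁₂_eq₂]; rfl
  have hinj : Function.Injective (𝔭.quot N).ι₁ := by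
    rw [injective_iff_map_eq_zero]
    intro x hx
    obtain ⟨n, rfl⟩ := Submodule.Quotient.mk_surjective _ x
    rw [SubGlued.quotι₁_mk, Submodule.Quotient.mk_eq_zero] at hx
    rw [Submodule.Quotient.mk_eq_zero]
    exact H.mem_smul_top_of_ι₁_mem hN 𝔭 ne₁ hsat n hx
  have h2 : Module.finrank κ (𝔭.quot N).N₁ = Module.finrank κ (𝔭.quot N).N₁₂ :=
    LinearEquiv.finrank_eq
      (LinearEquiv.ofBijective (𝔭.quot N).ι₁ ⟨hinj, ι₁_surjective_of_finite _⟩)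
  have h3 := gh0_of_finite (𝔭.quot N)
  rw [h1, h2] at h3
  have h4 : ((gh0 (𝔭.quot N) : ℕ) : ℤ) = 1 := by rw [h3]; simp
  exact_mod_cast h4

namespace IsPt

variable {𝔭 : IdealDatum 𝔹} (h𝔭 : IsPt 𝔭) (H : CurveChartHyp 𝔹) {N : GluedModule 𝔹}
include h𝔭 H

theorem isLineBundle_smul (hN : N.IsLineBundle) : (𝔭.smul N).IsLineBundle :=
  H.isLineBundle_smul hN 𝔭 h𝔭.ne₁ h𝔭.ne₂

/-- The dichotomy for removing a point. -/
theorem dichotomy (hN : N.IsLineBundle) :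
    (gh0 N = gh0 (𝔭.smul N) + 1 ∧ gh1 N = gh1 (𝔭.smul N)) ∨
      (gh0 N = gh0 (𝔭.smul N) ∧ gh1 N + 1 = gh1 (𝔭.smul N)) := by
  haveI := H.finite_quot₁ hN 𝔭 h𝔭.ne₁
  haveI := H.finite_quot₂ hN 𝔭 h𝔭.ne₂
  exact (gluedSES (𝔭.sub N).shortExact).point_dichotomy
    (H.finCoh (h𝔭.isLineBundle_smul H hN)) (finCoh_of_finite _) (h𝔭.gh0_quot N hN)
    (gh1_of_finite _)

/-- Removing a point lowers `χ` by one. -/
theorem gchi_smul (hN : N.IsLineBundle) : gchi (𝔭.smul N) = gchi N - 1 := by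
  rw [gchi_eq, gchi_eq]
  rcases h𝔭.dichotomy H hN with ⟨h0, h1⟩ | ⟨h0, h1⟩
  · rw [h0, h1]; push_cast; ring
  · rw [h0, ← h1]; push_cast; ring

/-- If removing the point does not change `h⁰`, every section vanishes at the point. -/
theorem fst_mem_of_gh0_eq (hN : N.IsLineBundle) (h : gh0 (𝔭.smul N) = gh0 N) (s : N.H0) :
    (s : N.N₁ × N.N₂).1 ∈ (𝔭.a₁ • ⊤ : Submodule 𝔹.B₁ N.N₁) := by
  haveI : Module.Finite κ N.H0 := (H.finCoh hN).finite_H0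
  haveI : Module.Finite κ (𝔭.smul N).H0 :=
    (H.finCoh (h𝔭.isLineBundle_smul H hN)).finite_H0
  have hinj : Function.Injective (𝔭.sub N).incl.H0 := by
    intro x y hxy
    have h1 := congrArg (fun z : N.H0 => (z : N.N₁ × N.N₂)) hxy
    apply Subtype.ext
    apply Prod.ext
    · exact Subtype.ext (congrArg Prod.fst h1)
    · exact Subtype.ext (congrArg Prod.snd h1)
  have hsurj := (LinearMap.injective_iff_surjective_of_finrank_eq_finrank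
    (by rw [← gh0_eq, ← gh0_eq, h])).mp hinj
  obtain ⟨s', rfl⟩ := hsurj s
  exact (s' : (𝔭.smul N).N₁ × (𝔭.smul N).N₂).1.2

end IsPt

/-- If `H⁰(𝔪 N) = 0` (`𝔪` a closed point of chart 1), no nonzero section of `N` vanishes at `𝔪`. -/
theorem eq_zero_of_fst_mem (H : CurveChartHyp 𝔹) (𝔪 : Ideal 𝔹.B₁) [h𝔪 : 𝔪.IsMaximal]
    {N : GluedModule 𝔹} (hN : N.IsLineBundle)
    (h0 : gh0 ((IdealDatum.ofFst 𝔪 : IdealDatum 𝔹).smul N) = 0) (s : N.H0)
    (hs : (s : N.N₁ × N.N₂).1 ∈ (𝔪 • ⊤ : Submodule 𝔹.B₁ N.N₁)) : s = 0 := by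
  have h𝔭 := isPt_ofFst H 𝔪
  set 𝔭 : IdealDatum 𝔹 := IdealDatum.ofFst 𝔪 with h𝔭def
  have hmem := (N.mem_H0 _).mp s.2
  have hs2 : (s : N.N₁ × N.N₂).2 ∈ (𝔭.a₂ • ⊤ : Submodule 𝔹.B₂ N.N₂) := by
    apply H.mem_smul_top_of_ι₂_mem hN 𝔭 h𝔭.ne₂ rfl
    rw [← hmem]
    exact (𝔭.sub N).ι₁_mem _ hs
  let s' : (𝔭.smul N).H0 := ⟨(⟨(s : N.N₁ × N.N₂).1, hs⟩, ⟨(s : N.N₁ × N.N₂).2, hs2⟩), by
    rw [GluedModule.mem_H0]
    exact Subtype.ext hmem⟩
  haveI : Module.Finite κ (𝔭.smul N).H0 :=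
    (H.finCoh (h𝔭.isLineBundle_smul H hN)).finite_H0
  have hsub : Subsingleton (𝔭.smul N).H0 := by
    rw [← Module.finrank_zero_iff (R := κ), ← gh0_eq]
    exact h0
  have hs' : s' = 0 := Subsingleton.elim _ _
  have h1 := congrArg (fun z : (𝔭.smul N).H0 =>
    ((z : (𝔭.smul N).N₁ × (𝔭.smul N).N₂).1 : N.N₁)) hs'
  have h2 := congrArg (fun z : (𝔭.smul N).H0 =>
    ((z : (𝔭.smul N).N₁ × (𝔭.smul N).N₂).2 : N.N₂)) hs'
  exact Subtype.ext (Prod.ext h1 h2)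

/-- If `H⁰(𝔪 N) = 0` (`𝔪` a closed point of chart 2), no nonzero section of `N` vanishes at `𝔪`. -/
theorem eq_zero_of_snd_mem (H : CurveChartHyp 𝔹) (𝔪 : Ideal 𝔹.B₂) [h𝔪 : 𝔪.IsMaximal]
    {N : GluedModule 𝔹} (hN : N.IsLineBundle)
    (h0 : gh0 ((IdealDatum.ofSnd 𝔪 : IdealDatum 𝔹).smul N) = 0) (s : N.H0)
    (hs : (s : N.N₁ × N.N₂).2 ∈ (𝔪 • ⊤ : Submodule 𝔹.B₂ N.N₂)) : s = 0 := by
  have h𝔭 := isPt_ofSnd H 𝔪
  set 𝔭 : IdealDatum 𝔹 := IdealDatum.ofSnd 𝔪 with h𝔭def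
  have hmem := (N.mem_H0 _).mp s.2
  have hsat : 𝔭.a₁ = 𝔭.a₁₂.comap 𝔹.r₁ := by rw [IdealDatum.a₁₂_eq₂]; rfl
  have hs1 : (s : N.N₁ × N.N₂).1 ∈ (𝔭.a₁ • ⊤ : Submodule 𝔹.B₁ N.N₁) := by
    apply H.mem_smul_top_of_ι₁_mem hN 𝔭 h𝔭.ne₁ hsat
    rw [hmem]
    exact (𝔭.sub N).ι₂_mem _ hs
  let s' : (𝔭.smul N).H0 := ⟨(⟨(s : N.N₁ × N.N₂).1, hs1⟩, ⟨(s : N.N₁ × N.N₂).2, hs⟩), by
    rw [GluedModule.mem_H0]
    exact Subtype.ext hmem⟩
  haveI : Module.Finite κ (𝔭.smul N).H0 :=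
    (H.finCoh (h𝔭.isLineBundle_smul H hN)).finite_H0
  have hsub : Subsingleton (𝔭.smul N).H0 := by
    rw [← Module.finrank_zero_iff (R := κ), ← gh0_eq]
    exact h0
  have hs' : s' = 0 := Subsingleton.elim _ _
  have h1 := congrArg (fun z : (𝔭.smul N).H0 =>
    ((z : (𝔭.smul N).N₁ × (𝔭.smul N).N₂).1 : N.N₁)) hs'
  have h2 := congrArg (fun z : (𝔭.smul N).H0 =>
    ((z : (𝔭.smul N).N₁ × (𝔭.smul N).N₂).2 : N.N₂)) hs'
  exact Subtype.ext (Prod.ext h1 h2)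

end Fermat.Agent.S25.ATLAS.TW.GOODK
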