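/-
S25 package ATLAS, sub-package TW, leaf GOODK (helper7710): the "down form" of (Good Δ).

* `exists_points` (abstract, any curve chart over an algebraically closed field): given finitely
  many point data `Q i` (tests), an infinite injective supply `P x` of closed points of chart 1,
  and a line bundle `M` with `h⁰(Q i • M) = m`, `h¹(Q i • M) = 0` for all `i`, there are
  `x₁, …, x_m` such that `M' = P x_m • (… • (P x₁ • M))` has `H*(Q i • M') = 0` for all `i`.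
* `exists_good_down_of` : the leaf `exists_good_down` of `TW/Plan.lean` (exact conclusion), with
  the other leaves it needs as explicit hypotheses:
  INST (`CurveChartHyp (𝒞.chart κ)`), PTS (`Infinite (𝒞.A₁₂ →ₐ[k] k)`), PT1, PT2, N0, GENUS.

No sorry.
-/
import Fermat.Agent.S25.ATLAS.TW.GOODK.Iso
import Fermat.Agent.S25.ATLAS.TW.GOODK.Point
import Fermat.Agent.S25.ATLAS.TW.GOODK.GoodOfSections

set_option autoImplicit false
set_option linter.style.haveILetI false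
set_option linter.unusedSectionVars false

universe u

namespace Fermat.Agent.S25.ATLAS.TW.GOODK

open Fermat.Agent.S25 H1451

section Abstract

variable {κ : Type u} [Field κ] [IsAlgClosed κ] {𝔹 : TwoChart κ}

theorem gh0_swap (𝔮 𝔭 : IdealDatum 𝔹) (N : GluedModule 𝔹) :
    gh0 (𝔮.smul (𝔭.smul N)) = gh0 (𝔭.smul (𝔮.smul N)) := by
  obtain ⟨e⟩ := nonempty_swap_iso 𝔮 𝔭 N
  exact gh0_congr e

theorem gh1_swap (𝔮 𝔭 : IdealDatum 𝔹) (N : GluedModule 𝔹) :
    gh1 (𝔮.smul (𝔭.smul N)) = gh1 (𝔭.smul (𝔮.smul N)) := by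
  obtain ⟨e⟩ := nonempty_swap_iso 𝔮 𝔭 N
  exact gh1_congr e

/-- A line bundle with `h⁰ ≠ 0` has a nonzero section. -/
theorem exists_section_ne_zero {N : GluedModule 𝔹} (h : gh0 N ≠ 0) : ∃ s : N.H0, s ≠ 0 := by
  by_contra hcon
  push Not at hcon
  apply h
  have : Subsingleton N.H0 := ⟨fun a b => by rw [hcon a, hcon b]⟩
  rw [gh0_eq]
  exact Module.finrank_zero_of_subsingleton

/-- **Removing points** (abstract form of (Good Δ), down form). -/
theorem exists_points (H : CurveChartHyp 𝔹) {ι : Type*} [Finite ι] (Q : ι → IdealDatum 𝔹)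
    (hQ : ∀ i, IsPt (Q i)) {X : Type*} [Infinite X] (P : X → IdealDatum 𝔹)
    (hP : ∀ x, IsPt (P x)) (hPmax : ∀ x, (P x).a₁.IsMaximal)
    (hPinj : Function.Injective fun x => (P x).a₁) :
    ∀ (m : ℕ) (M : GluedModule 𝔹), M.IsLineBundle →
      (∀ i, gh0 ((Q i).smul M) = m ∧ gh1 ((Q i).smul M) = 0) →
      ∃ l : List X, l.length = m ∧ (l.foldl (fun M x => (P x).smul M) M).IsLineBundle ∧
        ∀ i, gh0 ((Q i).smul (l.foldl (fun M x => (P x).smul M) M)) = 0 ∧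
          gh1 ((Q i).smul (l.foldl (fun M x => (P x).smul M) M)) = 0 := by
  intro m
  induction m with
  | zero =>
    intro M hM h
    exact ⟨[], rfl, hM, h⟩
  | succ m ih =>
    intro M hM h
    haveI := H.ded₁
    have hN : ∀ i, ((Q i).smul M).IsLineBundle := fun i => (hQ i).isLineBundle_smul H hM
    -- nonzero sections of the test bundles
    have hsec : ∀ i, ∃ s : ((Q i).smul M).H0, s ≠ 0 := fun i =>
      exists_section_ne_zero (by rw [(h i).1]; exact Nat.succ_ne_zero m)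
    choose s hs using hsec
    -- the finitely many zeros
    have hbad : ∀ i, {x : X | ((s i : ((Q i).smul M).N₁ × ((Q i).smul M).N₂)).1 ∈
        ((P x).a₁ • ⊤ : Submodule 𝔹.B₁ ((Q i).smul M).N₁)}.Finite := by
      intro i
      haveI := (hN i).inv₁
      have hfin := finite_setOf_isMaximal_mem_smul_top (B := 𝔹.B₁)
        (H.sec_fst_ne_zero (hN i) (hs i))
      refine (hfin.preimage (hPinj.injOn)).subset ?_
      intro x hx
      exact ⟨hPmax x, hx⟩
    have hfin : (⋃ i, {x : X | ((s i : ((Q i).smul M).N₁ × ((Q i).smul M).N₂)).1 ∈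
        ((P x).a₁ • ⊤ : Submodule 𝔹.B₁ ((Q i).smul M).N₁)}).Finite :=
      Set.finite_iUnion hbad
    obtain ⟨x, hx⟩ := hfin.infinite_compl.nonempty
    have hx' : ∀ i, ((s i : ((Q i).smul M).N₁ × ((Q i).smul M).N₂)).1 ∉
        ((P x).a₁ • ⊤ : Submodule 𝔹.B₁ ((Q i).smul M).N₁) := fun i hmem =>
      hx (Set.mem_iUnion.mpr ⟨i, hmem⟩)
    -- the step
    have hstep : ∀ i, gh0 ((Q i).smul ((P x).smul M)) = m ∧
        gh1 ((Q i).smul ((P x).smul M)) = 0 := by
      intro i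
      rw [gh0_swap, gh1_swap]
      rcases (hP x).dichotomy H (hN i) with ⟨h0, h1⟩ | ⟨h0, -⟩
      · rw [(h i).1] at h0
        rw [(h i).2] at h1
        exact ⟨by omega, h1.symm⟩
      · exact absurd ((hP x).fst_mem_of_gh0_eq H (hN i) h0.symm (s i)) (hx' i)
    obtain ⟨l, hl, hlb, hl'⟩ := ih ((P x).smul M) ((hP x).isLineBundle_smul H hM) hstep
    exact ⟨x :: l, by rw [List.length_cons, hl], hlb, hl'⟩

end Abstract

section Concrete

variable {k : Type u} [Field k] (𝒞 : CurveData k) (κ : Type u) [Field κ] [IsAlgClosed κ]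
  [Algebra k κ]

theorem epsR_surjective : Function.Surjective (𝒞.epsR κ : (𝒞.chart κ).B₁ →+* κ) := by
  intro c
  exact ⟨algebraMap κ (𝒞.chart κ).B₁ c, (𝒞.epsR κ).commutes c⟩

/-- The leaf GOODK (`exists_good_down` of `TW/Plan.lean`), from the leaves INST, PTS, PT1, PT2,
N0, GENUS as hypotheses. -/
theorem exists_good_down_of (H : CurveChartHyp (𝒞.chart κ))
    (hinf : Infinite (𝒞.A₁₂ →ₐ[k] k))
    (hmax : ∀ x : 𝒞.A₁₂ →ₐ[k] k, (ptDatum 𝒞 κ x).a₁.IsMaximal)
    (hinj : Function.Injective (fun x : 𝒞.A₁₂ →ₐ[k] k => (ptDatum 𝒞 κ x).a₁))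
    (hn₀ : Module.finrank κ ((𝒞.chart κ).B₂ ⧸ Ideal.span {(𝒞.chart κ).g}) = n₀ 𝒞)
    (hgenus : Module.finrank κ (GluedModule.unit (𝒞.chart κ)).H1 = genus 𝒞)
    (L : GluedModule (𝒞.chart κ)) (hL : L.IsLineBundle)
    (hchi : GluedModule.chi L = GluedModule.chi (GluedModule.unit (𝒞.chart κ))) :
    ∃ (N : ℕ) (l : List (𝒞.A₁₂ →ₐ[k] k)), N * n₀ 𝒞 = l.length + genus 𝒞 ∧
      Good 𝒞 (((divDatum 𝒞 κ l).smul L).twist (N : ℤ)) := by
  classical
  haveI := H.ded₂
  -- the test data: `ε` and the points of `V(g)`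
  have hεmax : (RingHom.ker (𝒞.epsR κ : (𝒞.chart κ).B₁ →+* κ)).IsMaximal :=
    RingHom.ker_isMaximal_of_surjective _ (epsR_surjective 𝒞 κ)
  have hVfin : {𝔪 : Ideal (𝒞.chart κ).B₂ | 𝔪.IsMaximal ∧ (𝒞.chart κ).g ∈ 𝔪}.Finite :=
    finite_setOf_isMaximal_mem H.g_ne_zero
  haveI : Finite {𝔪 : Ideal (𝒞.chart κ).B₂ | 𝔪.IsMaximal ∧ (𝒞.chart κ).g ∈ 𝔪} :=
    hVfin.to_subtype
  let Q : Option {𝔪 : Ideal (𝒞.chart κ).B₂ | 𝔪.IsMaximal ∧ (𝒞.chart κ).g ∈ 𝔪} →
      IdealDatum (𝒞.chart κ) := fun o =>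
    o.elim (IdealDatum.ofFst (RingHom.ker (𝒞.epsR κ : (𝒞.chart κ).B₁ →+* κ)))
      (fun 𝔪 => IdealDatum.ofSnd 𝔪.1)
  have hQ : ∀ i, IsPt (Q i) := by
    intro i
    cases i with
    | none => exact isPt_ofFst H _
    | some 𝔪 =>
      haveI := 𝔪.2.1
      exact isPt_ofSnd H 𝔪.1
  -- the supply of points
  have hP : ∀ x : 𝒞.A₁₂ →ₐ[k] k, IsPt (ptDatum 𝒞 κ x) := by
    intro x
    haveI := hmax x
    have h1 : ptDatum 𝒞 κ x = IdealDatum.ofFst (ptDatum 𝒞 κ x).a₁ :=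
      IdealDatum.ofOverlap_eq_ofFst _
    rw [h1]
    exact isPt_ofFst H _
  -- Serre vanishing for the test bundles
  have hvan : ∀ i, ∃ n₁ : ℕ, ∀ n : ℤ, (n₁ : ℤ) ≤ n → Subsingleton (((Q i).smul L).twist n).H1 := by
    intro i
    haveI := H.finite_H1 ((hQ i).isLineBundle_smul H hL)
    exact H2750.exists_twist_H1_subsingleton _
  choose n₁ hn₁ using hvan
  obtain ⟨N, hN⟩ := (Set.finite_range n₁).bddAbove
  have hN' : ∀ i, n₁ i ≤ N := fun i => hN (Set.mem_range_self i)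
  have hM₀ : (L.twist (N : ℤ)).IsLineBundle := GluedModule.twist_isLineBundle hL _
  -- numerics
  have hgchiL : gchi L = 1 - (genus 𝒞 : ℤ) := by
    have h1 : gchi L = GluedModule.chi L := rfl
    have h2 : GluedModule.chi (GluedModule.unit (𝒞.chart κ)) =
        (gh0 (GluedModule.unit (𝒞.chart κ)) : ℤ) - (gh1 (GluedModule.unit (𝒞.chart κ)) : ℤ) := rfl
    rw [h1, hchi, h2, H.gh0_unit, gh1_eq, hgenus]
    simp
  have hgchiM₀ : gchi (L.twist (N : ℤ)) = 1 - (genus 𝒞 : ℤ) + (N : ℤ) * (n₀ 𝒞 : ℤ) := by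
    rw [gchi_twist_nat H hL, hgchiL, hn₀]
  have htest : ∀ i, ((gh0 ((Q i).smul (L.twist (N : ℤ))) : ℕ) : ℤ) =
        (N : ℤ) * (n₀ 𝒞 : ℤ) - (genus 𝒞 : ℤ) ∧
      gh1 ((Q i).smul (L.twist (N : ℤ))) = 0 := by
    intro i
    have h1 : gh1 ((Q i).smul (L.twist (N : ℤ))) = 0 := by
      rw [gh1_congr (smulTwistIso (Q i) L (N : ℤ)), gh1_eq]
      haveI := hn₁ i (N : ℤ) (by exact_mod_cast hN' i)
      exact Module.finrank_zero_of_subsingleton
    have h2 := (hQ i).gchi_smul H hM₀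
    rw [gchi_eq, h1, hgchiM₀] at h2
    refine ⟨?_, h1⟩
    push_cast at h2
    linarith
  -- the points
  obtain ⟨l, hl, hlb, hl'⟩ := exists_points H Q hQ (ptDatum 𝒞 κ) hP hmax hinj
    (gh0 ((Q none).smul (L.twist (N : ℤ)))) (L.twist (N : ℤ)) hM₀ (fun i => by
      refine ⟨?_, (htest i).2⟩
      have h1 := (htest i).1
      have h2 := (htest none).1
      exact_mod_cast h1.trans h2.symm)
  refine ⟨N, l, ?_, ?_⟩
  · have h2 := (htest none).1
    rw [← hl] at h2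
    have h3 : ((N * n₀ 𝒞 : ℕ) : ℤ) = ((l.length + genus 𝒞 : ℕ) : ℤ) := by
      push_cast
      linarith
    exact_mod_cast h3
  · -- `Good` for the nested bundle, then transport
    set M' := l.foldl (fun M x => (ptDatum 𝒞 κ x).smul M) (L.twist (N : ℤ)) with hM'
    have hgood : Good 𝒞 M' := by
      have hnone := hl' none
      have hdich := (hQ none).dichotomy H hlb
      rw [hnone.1, hnone.2] at hdich
      have h0 : gh0 M' = 1 := by
        rcases hdich with ⟨h0, -⟩ | ⟨-, h1⟩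
        · exact h0
        · exact absurd h1 (Nat.succ_ne_zero _)
      have h1 : gh1 M' = 0 := by
        rcases hdich with ⟨-, h1⟩ | ⟨-, h1⟩
        · exact h1
        · exact absurd h1 (Nat.succ_ne_zero _)
      haveI : Module.Finite κ M'.H1 := (H.finCoh hlb).finite_H1
      refine H2928.good_of_sections 𝒞 M' hlb ?_ h0 ?_ ?_
      · rw [← Module.finrank_zero_iff (R := κ)]
        exact h1
      · intro s hs
        haveI := hεmax
        exact eq_zero_of_fst_mem H _ hlb hnone.1 s hs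
      · intro 𝔪 h𝔪 hg s hs
        haveI := h𝔪
        exact eq_zero_of_snd_mem H 𝔪 hlb (hl' (some ⟨𝔪, h𝔪, hg⟩)).1 s hs
    obtain ⟨e⟩ := nonempty_foldl_iso (ptDatum 𝒞 κ) l (L.twist (N : ℤ))
    exact good_of_iso 𝒞 (e.trans (smulTwistIso (divDatum 𝒞 κ l) L (N : ℤ))) hgood

end Concrete

end Fermat.Agent.S25.ATLAS.TW.GOODK
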